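/-
S55 / Program C, package C7 (second inequality, Kummer case), leaf (EX), part (EX-loc)  (helper65).

Local facts in the embedding model (`PadicAlgCl ℓ`, helper88's `locField`):

* `norm_algEquiv_apply`: `ℚ_ℓ`-automorphisms of `PadicAlgCl ℓ` are isometries;
* `exists_pow_eq_of_norm_sub_lt_one`: for an intermediate field `K` of `PadicAlgCl ℓ / ℚ_ℓ`, a prime
  `p ≠ ℓ` and `u, n ∈ K` with `‖u‖ = 1`, `‖u - n ^ p‖ < 1`, the element `u` is a `p`-th power in `K`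
  (Hensel's lemma for `X ^ p - u`, proved by Galois descent from the algebraic closure: no
  completeness is used);
* `exists_norm_sub_lt`: the image of `τ : k →+* PadicAlgCl ℓ` is dense in `locField ℓ τ`.
-/
import Mathlib
import Fermat.Agent.S55.H88.SemiLocalDefs

set_option autoImplicit false

open Polynomial

namespace Fermat.Agent.S55.H65

open Fermat.Agent.S55.H88

variable {ℓ : ℕ} [Fact ℓ.Prime]

/-- `ℚ_ℓ`-automorphisms of `PadicAlgCl ℓ` are isometries. -/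
theorem norm_algEquiv_apply (g : PadicAlgCl ℓ ≃ₐ[ℚ_[ℓ]] PadicAlgCl ℓ) (x : PadicAlgCl ℓ) :
    ‖g x‖ = ‖x‖ := by
  rw [← PadicAlgCl.spectralNorm_eq, ← PadicAlgCl.spectralNorm_eq]
  exact (spectralNorm_eq_of_equiv g x).symm

/-- Ultrametric inequality for a difference. -/
theorem norm_sub_le_max' (x y : PadicAlgCl ℓ) : ‖x - y‖ ≤ max ‖x‖ ‖y‖ := by
  have h := IsUltrametricDist.norm_add_le_max x (-y)
  rwa [norm_neg, ← sub_eq_add_neg] at h

/-- A strict ultrametric bound for finite sums. -/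
theorem norm_sum_lt_one {ι : Type*} (s : Finset ι) (f : ι → PadicAlgCl ℓ)
    (h : ∀ i ∈ s, ‖f i‖ < 1) : ‖∑ i ∈ s, f i‖ < 1 := by
  classical
  induction s using Finset.induction_on with
  | empty => simp
  | insert a s ha ih =>
    rw [Finset.sum_insert ha]
    refine lt_of_le_of_lt (IsUltrametricDist.norm_add_le_max _ _) (max_lt ?_ ?_)
    · exact h a (Finset.mem_insert_self a s)
    · exact ih fun i hi => h i (Finset.mem_insert_of_mem hi)

/-- The norm of a prime `p ≠ ℓ` in `PadicAlgCl ℓ` is one. -/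
theorem norm_natCast_prime_eq_one {p : ℕ} (hp : p.Prime) (hpℓ : p ≠ ℓ) :
    ‖(p : PadicAlgCl ℓ)‖ = 1 := by
  have h1 : (p : PadicAlgCl ℓ) = algebraMap ℚ_[ℓ] (PadicAlgCl ℓ) (p : ℚ_[ℓ]) := by simp
  rw [h1, PadicAlgCl.norm_extends, Padic.norm_natCast_eq_one_iff]
  exact (Nat.coprime_primes Fact.out hp).mpr (Ne.symm hpℓ)

/-- A `p`-th root of unity congruent to `1` modulo the maximal ideal is `1` (`p ≠ ℓ`). -/
theorem eq_one_of_pow_eq_one_of_norm_sub_lt {p : ℕ} (hp : p.Prime) (hpℓ : p ≠ ℓ)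
    {ξ : PadicAlgCl ℓ} (hξ : ξ ^ p = 1) (h : ‖ξ - 1‖ < 1) : ξ = 1 := by
  by_contra hne
  have : Fact p.Prime := ⟨hp⟩
  have hprim : IsPrimitiveRoot ξ p := by
    rw [IsPrimitiveRoot.iff_orderOf]
    exact orderOf_eq_prime hξ hne
  have hsum : ∑ i ∈ Finset.range p, ξ ^ i = 0 := hprim.geom_sum_eq_zero hp.one_lt
  have hξ1 : ‖ξ‖ = 1 := by
    have h1 : ‖ξ‖ ^ p = 1 := by rw [← norm_pow, hξ, norm_one]
    exact (pow_eq_one_iff_of_nonneg (norm_nonneg _) hp.ne_zero).mp h1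
  have hterm : ∀ i ∈ Finset.range p, ‖1 - ξ ^ i‖ < 1 := by
    intro i _
    have h2 : 1 - ξ ^ i = -((∑ j ∈ Finset.range i, ξ ^ j) * (ξ - 1)) := by
      rw [geom_sum_mul]; ring
    rw [h2, norm_neg, norm_mul]
    have h3 : ‖∑ j ∈ Finset.range i, ξ ^ j‖ ≤ 1 :=
      IsUltrametricDist.norm_sum_le_of_forall_le_of_nonneg zero_le_one fun j _ => by
        rw [norm_pow, hξ1, one_pow]
    calc ‖∑ j ∈ Finset.range i, ξ ^ j‖ * ‖ξ - 1‖ ≤ 1 * ‖ξ - 1‖ :=
          mul_le_mul_of_nonneg_right h3 (norm_nonneg _)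
      _ < 1 := by rw [one_mul]; exact h
  have hp' : (p : PadicAlgCl ℓ) = ∑ i ∈ Finset.range p, (1 - ξ ^ i) := by
    rw [Finset.sum_sub_distrib, hsum, sub_zero]
    simp
  have hlt : ‖(p : PadicAlgCl ℓ)‖ < 1 := by
    rw [hp']
    exact norm_sum_lt_one _ _ hterm
  rw [norm_natCast_prime_eq_one hp hpℓ] at hlt
  exact lt_irrefl _ hlt

/-- **Hensel's lemma for `X ^ p - u`** in an arbitrary intermediate field of `PadicAlgCl ℓ / ℚ_ℓ`,
`p ≠ ℓ`: a unit which is a `p`-th power modulo the maximal ideal is a `p`-th power. -/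
theorem exists_pow_eq_of_norm_sub_lt_one (K : IntermediateField ℚ_[ℓ] (PadicAlgCl ℓ)) {p : ℕ}
    (hp : p.Prime) (hpℓ : p ≠ ℓ) {u n : K} (hu : ‖(u : PadicAlgCl ℓ)‖ = 1)
    (h : ‖(u : PadicAlgCl ℓ) - (n : PadicAlgCl ℓ) ^ p‖ < 1) : ∃ x : K, x ^ p = u := by
  classical
  have hp0 : (p : PadicAlgCl ℓ) ≠ 0 := Nat.cast_ne_zero.mpr hp.ne_zero
  have : NeZero (p : PadicAlgCl ℓ) := ⟨hp0⟩
  obtain ⟨ζ, hζ⟩ := HasEnoughRootsOfUnity.exists_primitiveRoot (PadicAlgCl ℓ) p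
  obtain ⟨β₀, hβ₀⟩ := IsAlgClosed.exists_pow_nat_eq (u : PadicAlgCl ℓ) hp.pos
  -- one of the `p`-th roots of `u` is congruent to `n`
  have hprod : (n : PadicAlgCl ℓ) ^ p - (u : PadicAlgCl ℓ)
      = ∏ i ∈ Finset.range p, ((n : PadicAlgCl ℓ) - ζ ^ i * β₀) := by
    have h1 := congrArg (Polynomial.eval (n : PadicAlgCl ℓ)) (X_pow_sub_C_eq_prod hζ hp.pos hβ₀)
    simpa [Polynomial.eval_prod] using h1
  have hex : ∃ i ∈ Finset.range p, ‖(n : PadicAlgCl ℓ) - ζ ^ i * β₀‖ < 1 := by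
    by_contra hcon
    have hcon' : ∀ i ∈ Finset.range p, 1 ≤ ‖(n : PadicAlgCl ℓ) - ζ ^ i * β₀‖ :=
      fun i hi => not_lt.mp fun hlt => hcon ⟨i, hi, hlt⟩
    have h1 : 1 ≤ ‖(n : PadicAlgCl ℓ) ^ p - (u : PadicAlgCl ℓ)‖ := by
      rw [hprod, norm_prod]
      exact Finset.one_le_prod hcon'
    rw [norm_sub_rev] at h1
    exact absurd h (not_lt.mpr h1)
  obtain ⟨i, -, hi⟩ := hex
  set β : PadicAlgCl ℓ := ζ ^ i * β₀ with hβdef
  have hβ : β ^ p = (u : PadicAlgCl ℓ) := by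
    rw [hβdef, mul_pow, ← pow_mul, mul_comm i p, pow_mul, hζ.pow_eq_one, one_pow, one_mul, hβ₀]
  have hβ1 : ‖β‖ = 1 := by
    have h1 : ‖β‖ ^ p = 1 := by rw [← norm_pow, hβ, hu]
    exact (pow_eq_one_iff_of_nonneg (norm_nonneg _) hp.ne_zero).mp h1
  have hβ0 : β ≠ 0 := by
    intro h0
    rw [h0, norm_zero] at hβ1
    exact zero_ne_one hβ1
  -- `β` is fixed by the Galois group of `PadicAlgCl ℓ` over `K`
  have hfix : ∀ g : PadicAlgCl ℓ ≃ₐ[K] PadicAlgCl ℓ, g β = β := by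
    intro g
    have hgn : g (n : PadicAlgCl ℓ) = (n : PadicAlgCl ℓ) := g.commutes n
    have hgu : g (u : PadicAlgCl ℓ) = (u : PadicAlgCl ℓ) := g.commutes u
    have h1 : ‖g β - (n : PadicAlgCl ℓ)‖ < 1 := by
      have h2 : g β - (n : PadicAlgCl ℓ) = (g.restrictScalars ℚ_[ℓ]) (β - (n : PadicAlgCl ℓ)) := by
        rw [map_sub]
        show g β - (n : PadicAlgCl ℓ) = g β - g (n : PadicAlgCl ℓ)
        rw [hgn]
      rw [h2, norm_algEquiv_apply, norm_sub_rev]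
      exact hi
    have h3 : ‖g β - β‖ < 1 := by
      have h4 : g β - β = (g β - (n : PadicAlgCl ℓ)) - (β - (n : PadicAlgCl ℓ)) := by ring
      rw [h4]
      refine lt_of_le_of_lt (norm_sub_le_max' _ _) (max_lt h1 ?_)
      rw [norm_sub_rev]
      exact hi
    have h5 : (g β / β) ^ p = 1 := by
      rw [div_pow, ← map_pow, hβ, hgu, div_self]
      rw [← hβ]
      exact pow_ne_zero p hβ0
    have h6 : ‖g β / β - 1‖ < 1 := by
      have h7 : g β / β - 1 = (g β - β) / β := by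
        field_simp
      rw [h7, norm_div, hβ1, div_one]
      exact h3
    have h8 := eq_one_of_pow_eq_one_of_norm_sub_lt hp hpℓ h5 h6
    rwa [div_eq_one_iff_eq hβ0] at h8
  obtain ⟨x, hx⟩ := (InfiniteGalois.mem_range_algebraMap_iff_fixed (k := K) β).mpr hfix
  refine ⟨x, Subtype.ext ?_⟩
  show ((x : PadicAlgCl ℓ)) ^ p = (u : PadicAlgCl ℓ)
  have hx' : (x : PadicAlgCl ℓ) = β := hx
  rw [hx', hβ]

/-- The image of `τ` is dense in `locField ℓ τ`. -/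
theorem exists_norm_sub_lt {k : Type*} [Field k] (τ : k →+* PadicAlgCl ℓ) (x : locField ℓ τ)
    {ε : ℝ} (hε : 0 < ε) : ∃ a : k, ‖(x : PadicAlgCl ℓ) - τ a‖ < ε := by
  -- the topological closure of the image of `τ` is a `ℚ_ℓ`-subalgebra
  let T : Subring (PadicAlgCl ℓ) := τ.range.topologicalClosure
  have hT : ∀ c : ℚ_[ℓ], algebraMap ℚ_[ℓ] (PadicAlgCl ℓ) c ∈ T := by
    intro c
    refine (Padic.denseRange_ratCast ℓ).induction_on c ?_ ?_
    · exact (Subring.isClosed_topologicalClosure τ.range).preimage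
        (continuous_algebraMap ℚ_[ℓ] (PadicAlgCl ℓ))
    · intro r
      apply Subring.le_topologicalClosure
      refine ⟨(r : k), ?_⟩
      rw [map_ratCast, map_ratCast]
  let T' : Subalgebra ℚ_[ℓ] (PadicAlgCl ℓ) := { T.toSubsemiring with algebraMap_mem' := hT }
  have hle : Algebra.adjoin ℚ_[ℓ] (Set.range τ) ≤ T' :=
    Algebra.adjoin_le fun y hy => Subring.le_topologicalClosure τ.range (by simpa using hy)
  have hx : (x : PadicAlgCl ℓ) ∈
      (IntermediateField.adjoin ℚ_[ℓ] (Set.range τ)).toSubalgebra := x.2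
  rw [IntermediateField.adjoin_toSubalgebra_of_isAlgebraic
    (fun y _ => Algebra.IsAlgebraic.isAlgebraic y)] at hx
  have hxT : (x : PadicAlgCl ℓ) ∈ closure (Set.range τ) := hle hx
  obtain ⟨b, ⟨a, rfl⟩, hb⟩ := Metric.mem_closure_iff.mp hxT ε hε
  exact ⟨a, by rwa [dist_eq_norm] at hb⟩

/-- Elements of `PadicAlgCl ℓ` integral over `ℤ` have norm at most one. -/
theorem norm_le_one_of_isIntegral {z : PadicAlgCl ℓ} (hz : IsIntegral ℤ z) : ‖z‖ ≤ 1 := by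
  let A : ValuationSubring (PadicAlgCl ℓ) :=
    (Valued.v : Valuation (PadicAlgCl ℓ) NNReal).valuationSubring
  have h1 : IsIntegral A z := hz.tower_top
  obtain ⟨y, hy⟩ := IsIntegrallyClosed.isIntegral_iff.mp h1
  have h2 : Valued.v (y : PadicAlgCl ℓ) ≤ 1 := y.2
  rw [← hy]
  have h3 : ‖(y : PadicAlgCl ℓ)‖₊ ≤ 1 := h2
  exact_mod_cast h3

section NumberField

open NumberField IsDedekindDomain

variable {k : Type*} [Field k] [NumberField k]

omit [NumberField k] in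
/-- Algebraic integers have norm at most one under every embedding into `PadicAlgCl ℓ`. -/
theorem norm_integer_le_one (τ : k →+* PadicAlgCl ℓ) (x : 𝓞 k) : ‖τ (x : k)‖ ≤ 1 :=
  norm_le_one_of_isIntegral (map_isIntegral_int τ (RingOfIntegers.isIntegral_coe x))

/-- If the prime `v` of `𝓞 k` is the prime of the embedding `τ`, every element of `k` which is
integral at `τ` is congruent to an element of `𝓞 k`. -/
theorem exists_integer_norm_sub_lt (τ : k →+* PadicAlgCl ℓ) (v : HeightOneSpectrum (𝓞 k))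
    (hv : ∀ x : 𝓞 k, x ∈ v.asIdeal ↔ ‖τ (x : k)‖ < 1) {a : k} (ha : ‖τ a‖ ≤ 1) :
    ∃ c : 𝓞 k, ‖τ a - τ (c : k)‖ < 1 := by
  have hnorm1 : ∀ x : 𝓞 k, x ∉ v.asIdeal → ‖τ (x : k)‖ = 1 := fun x hx =>
    le_antisymm (norm_integer_le_one τ x) (not_lt.mp fun h => hx ((hv x).mpr h))
  -- `a = r / s` with `s ∉ v`
  have hfrac : ∃ s r : 𝓞 k, s ∉ v.asIdeal ∧ a * (s : k) = (r : k) := by
    obtain ⟨n, d, h | h⟩ := v.exists_primeCompl_mul_eq_or_mul_eq a
    · exact ⟨d, n, d.2, h⟩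
    · refine ⟨n, d, ?_, h⟩
      intro hn
      have h1 : ‖τ a‖ * ‖τ (n : k)‖ = 1 := by
        rw [← norm_mul, ← map_mul]
        have h' : a * (n : k) = ((d : 𝓞 k) : k) := h
        rw [h']
        exact hnorm1 d d.2
      have h2 : ‖τ (n : k)‖ < 1 := (hv n).mp hn
      have h3 : ‖τ a‖ * ‖τ (n : k)‖ ≤ 1 * ‖τ (n : k)‖ :=
        mul_le_mul_of_nonneg_right ha (norm_nonneg _)
      linarith
  obtain ⟨s, r, hs, hsr⟩ := hfrac
  obtain ⟨s', i, hi, hsi⟩ := v.isMaximal.exists_inv hs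
  refine ⟨r * s', ?_⟩
  have hi' : (i : k) = 1 - (s' : k) * (s : k) := by
    have h1 := congrArg (fun z : 𝓞 k => (z : k)) hsi
    simp only [map_add, map_mul, map_one] at h1
    linear_combination h1
  have h1 : τ a - τ ((r * s' : 𝓞 k) : k) = τ a * τ (i : k) := by
    rw [← map_mul, ← map_sub]
    congr 1
    have h2 : ((r * s' : 𝓞 k) : k) = (r : k) * (s' : k) := map_mul _ _ _
    rw [h2, ← hsr, hi']
    ring
  rw [h1, norm_mul]
  have h2 : ‖τ (i : k)‖ < 1 := (hv i).mp hi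
  calc ‖τ a‖ * ‖τ (i : k)‖ ≤ 1 * ‖τ (i : k)‖ := mul_le_mul_of_nonneg_right ha (norm_nonneg _)
    _ < 1 := by rwa [one_mul]

/-- **(EX-loc)**: for a prime `v` of `𝓞 k` with embedding `τ` into `PadicAlgCl ℓ`, `p ≠ ℓ` and a
`v`-unit `u ∈ 𝓞 k`: `u` is a `p`-th power in the completion `locField ℓ τ` if and only if it is a
`p`-th power modulo `v`. -/
theorem exists_pow_eq_locEmb_iff {p : ℕ} (hp : p.Prime) (hpℓ : p ≠ ℓ) (τ : k →+* PadicAlgCl ℓ)
    (v : HeightOneSpectrum (𝓞 k)) (hv : ∀ x : 𝓞 k, x ∈ v.asIdeal ↔ ‖τ (x : k)‖ < 1)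
    (u : 𝓞 k) (hu : u ∉ v.asIdeal) :
    (∃ z : locField ℓ τ, z ^ p = locEmb ℓ τ (u : k)) ↔ ∃ n : 𝓞 k, u - n ^ p ∈ v.asIdeal := by
  have hu1 : ‖τ (u : k)‖ = 1 :=
    le_antisymm (norm_integer_le_one τ u) (not_lt.mp fun h => hu ((hv u).mpr h))
  constructor
  · rintro ⟨z, hz⟩
    have hz' : (z : PadicAlgCl ℓ) ^ p = τ (u : k) := by
      have h1 := congrArg (fun w : locField ℓ τ => (w : PadicAlgCl ℓ)) hz
      simpa using h1
    have hz1 : ‖(z : PadicAlgCl ℓ)‖ = 1 := by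
      have h1 : ‖(z : PadicAlgCl ℓ)‖ ^ p = 1 := by rw [← norm_pow, hz', hu1]
      exact (pow_eq_one_iff_of_nonneg (norm_nonneg _) hp.ne_zero).mp h1
    obtain ⟨a, ha⟩ := exists_norm_sub_lt τ z one_pos
    have ha1 : ‖τ a‖ ≤ 1 := by
      have h1 : τ a = (z : PadicAlgCl ℓ) - ((z : PadicAlgCl ℓ) - τ a) := by ring
      rw [h1]
      exact (norm_sub_le_max' _ _).trans (max_le hz1.le ha.le)
    obtain ⟨c, hc⟩ := exists_integer_norm_sub_lt τ v hv ha1
    have hzc : ‖(z : PadicAlgCl ℓ) - τ (c : k)‖ < 1 := by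
      have h1 : (z : PadicAlgCl ℓ) - τ (c : k)
          = ((z : PadicAlgCl ℓ) - τ a) + (τ a - τ (c : k)) := by ring
      rw [h1]
      exact lt_of_le_of_lt (IsUltrametricDist.norm_add_le_max _ _) (max_lt ha hc)
    refine ⟨c, (hv _).mpr ?_⟩
    have h1 : τ ((u - c ^ p : 𝓞 k) : k)
        = (∑ i ∈ Finset.range p, (z : PadicAlgCl ℓ) ^ i * τ (c : k) ^ (p - 1 - i))
          * ((z : PadicAlgCl ℓ) - τ (c : k)) := by
      rw [(Commute.all _ _).geom_sum₂_mul, hz']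
      simp
    rw [h1, norm_mul]
    have h2 : ‖∑ i ∈ Finset.range p, (z : PadicAlgCl ℓ) ^ i * τ (c : k) ^ (p - 1 - i)‖ ≤ 1 :=
      IsUltrametricDist.norm_sum_le_of_forall_le_of_nonneg zero_le_one fun i _ => by
        rw [norm_mul, norm_pow, norm_pow, hz1, one_pow, one_mul]
        exact pow_le_one₀ (norm_nonneg _) (norm_integer_le_one τ c)
    calc ‖∑ i ∈ Finset.range p, (z : PadicAlgCl ℓ) ^ i * τ (c : k) ^ (p - 1 - i)‖
          * ‖(z : PadicAlgCl ℓ) - τ (c : k)‖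
        ≤ 1 * ‖(z : PadicAlgCl ℓ) - τ (c : k)‖ :=
          mul_le_mul_of_nonneg_right h2 (norm_nonneg _)
      _ < 1 := by rwa [one_mul]
  · rintro ⟨n, hn⟩
    have h1 : ‖τ ((u - n ^ p : 𝓞 k) : k)‖ < 1 := (hv _).mp hn
    obtain ⟨x, hx⟩ := exists_pow_eq_of_norm_sub_lt_one (locField ℓ τ) hp hpℓ
      (u := locEmb ℓ τ (u : k)) (n := locEmb ℓ τ (n : k)) (by simpa using hu1)
      (by simpa using h1)
    exact ⟨x, hx⟩

end NumberField

end Fermat.Agent.S55.H65
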