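/-
S55 / Program C, package C7 (second inequality, Kummer case), leaf (EX): final form  (helper65).

The two local Props of helper81's assembly (`H81.LocalPowOfResidue`, `H81.ResidueOfLocalPow`) are
the two directions of `exists_pow_eq_locEmb_iff` (`LocalPow.lean`); hence the existence of
auxiliary places in the embedding model (`exists_place_aux`) holds unconditionally.
-/
import Fermat.Agent.S55.H65.LocalPow
import Fermat.Agent.S55.H81.AuxPlace

set_option autoImplicit false

namespace Fermat.Agent.S55.H65

open NumberField IsDedekindDomain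

/-- (⟸) a unit which is a `p`-th power modulo the prime of `τ` is a `p`-th power in the
completion. -/
theorem localPowOfResidue (k : Type*) [Field k] [NumberField k] {p : ℕ} (hp : p.Prime) :
    H81.LocalPowOfResidue k p := by
  intro l _ hlp τ u n hu hn
  exact (exists_pow_eq_locEmb_iff hp (Ne.symm hlp) τ (H81.placeOfEmb τ) (fun _ => Iff.rfl) u
    hu).mpr ⟨n, hn⟩

/-- (⟹) a unit which is a `p`-th power in the completion is a `p`-th power modulo the prime of
`τ`. -/
theorem residueOfLocalPow (k : Type*) [Field k] [NumberField k] {p : ℕ} (hp : p.Prime) :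
    H81.ResidueOfLocalPow k p := by
  intro l _ hlp τ u z hu hz
  exact (exists_pow_eq_locEmb_iff hp (Ne.symm hlp) τ (H81.placeOfEmb τ) (fun _ => Iff.rfl) u
    hu).mp ⟨z, hz⟩

/-- **(EX)** existence of auxiliary places in the embedding model: for `y ∉ ⟨a⟩ · kˣᵖ` and every
bound `B` there is a prime `l > B` and a place `w` of `k` above `l` at which `a` is a `p`-th power
and `y` is not. -/
theorem exists_place_aux (k : Type*) [Field k] [NumberField k] {p : ℕ} (hp : p.Prime) {ζ : k}
    (hζ : IsPrimitiveRoot ζ p) (a y : kˣ)
    (hay : y ∉ Subgroup.zpowers a ⊔ H8.pPow p kˣ) (B : ℕ) :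
    ∃ (l : ℕ) (_ : Fact l.Prime), B < l ∧ ∃ w : H88.PlaceAbove l k,
      Units.map (H88.locEmb l w.emb).toMonoidHom a ∈ H8.pPow p (H88.locField l w.emb)ˣ ∧
      Units.map (H88.locEmb l w.emb).toMonoidHom y ∉ H8.pPow p (H88.locField l w.emb)ˣ :=
  H81.exists_place_aux_of_local k hp hζ (localPowOfResidue k hp) (residueOfLocalPow k hp) a y
    hay B

end Fermat.Agent.S55.H65
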