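/-
S55 / Program C, package C4 (helper26's plan), leaf (KUM) = task 409  (helper65).

`KummerDescentStatement p q` VERBATIM, from `LocalFieldLevelsStatement q`:
injectivity of `H²(G_E, μ_p) → Br(E)`.  If the unit cocycle `c` realising `f` is a coboundary
`c = d b`, then `b ^ p` is a 1-cocycle, `= d a` by Hilbert 90; with `α ^ p = a` the function
`u h = b (h|L') · α / h α` on `H = Gal(Ω/E)` takes values in `μ_p`, `u = ζ ^ w`, and `f = d w`;
`w` is constant modulo `Gal(Ω / L'(α))`, hence level-constant by (LVL)(b).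
-/
import Fermat.Agent.S55.H26.LocalInvPlan

set_option autoImplicit false

open CategoryTheory groupCohomology

namespace Fermat.Agent.S55.H65

open Fermat.Agent.S55.H49 Fermat.Agent.S55.H26 Fermat.Agent.S55.H66

/-- Hilbert 90 (Noether's form), with the Galois action written as `Units.map`. -/
theorem hilbert90_units {K L : Type*} [Field K] [Field L] [Algebra K L] [FiniteDimensional K L]
    (b : (L ≃ₐ[K] L) → Lˣ)
    (hb : ∀ g h : L ≃ₐ[K] L, b (g * h) = Units.map (g : L →* L) (b h) * b g) :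
    ∃ a : Lˣ, ∀ g : L ≃ₐ[K] L, Units.map (g : L →* L) a / a = b g :=
  isMulCoboundary₁_of_isMulCocycle₁_of_aut_to_units b hb

section

variable {q : ℕ} [Fact q.Prime]

/-- The restriction `Gal(Ω/E) → Gal(L'/E)` is the restriction. -/
theorem resE_apply (E : IntermediateField ℚ_[q] (PadicAlgCl q))
    (L' : IntermediateField E (PadicAlgCl q)) [Normal E L'] (h : E.fixingSubgroup) (x : L') :
    ((resE E L' h x : L') : PadicAlgCl q)
      = (h : PadicAlgCl q ≃ₐ[ℚ_[q]] PadicAlgCl q) (x : PadicAlgCl q) :=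
  AlgEquiv.restrictNormal_commutes (IntermediateField.fixingSubgroupEquiv E h) L' x

theorem resE_surjective (E : IntermediateField ℚ_[q] (PadicAlgCl q))
    (L' : IntermediateField E (PadicAlgCl q)) [Normal E L'] :
    Function.Surjective (resE E L') := by
  intro g
  obtain ⟨σ, hσ⟩ := AlgEquiv.restrictNormalHom_surjective (F := E) (K₁ := L') (PadicAlgCl q) g
  exact ⟨(IntermediateField.fixingSubgroupEquiv E).symm σ, by simp [resE, hσ]⟩

theorem resE_eq_one (E : IntermediateField ℚ_[q] (PadicAlgCl q))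
    (L' : IntermediateField E (PadicAlgCl q)) [Normal E L'] {n : E.fixingSubgroup}
    (hn : ∀ x : L', (n : PadicAlgCl q ≃ₐ[ℚ_[q]] PadicAlgCl q) (x : PadicAlgCl q) = x) :
    resE E L' n = 1 := by
  refine AlgEquiv.ext fun x => Subtype.ext ?_
  rw [resE_apply]
  exact hn x

end

/-- **Leaf (KUM)** of C4: Kummer descent, from the dictionary between levels and finite
extensions of `ℚ_q`. -/
theorem kummerDescentStatement (p : ℕ) [Fact p.Prime] (q : ℕ) [Fact q.Prime]
    (hL : LocalFieldLevelsStatement q) : KummerDescentStatement p q := by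
  intro ζ hζ E _ hζE L' _ _ ζ' hζ' f c hreal hc0
  classical
  have hp : p.Prime := Fact.out
  -- `c = d b`, in multiplicative notation (`C` = the cocycle `c` as a function to `L'ˣ`)
  obtain ⟨C, b, hb, hreal'⟩ : ∃ (C : (L' ≃ₐ[E] L') × (L' ≃ₐ[E] L') → L'ˣ)
      (b : (L' ≃ₐ[E] L') → L'ˣ),
      (∀ g h : L' ≃ₐ[E] L', Units.map (g : L' →* L') (b h) / b (g * h) * b g = C (g, h)) ∧
      ∀ h₁ h₂ : E.fixingSubgroup, C (resE E L' h₁, resE E L' h₂) = ζ' ^ (f (h₁, h₂)).val := by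
    have h1 := (groupCohomology.H2π_eq_zero_iff c).mp hc0
    obtain ⟨b, hb⟩ := isMulCoboundary₂_of_mem_coboundaries₂ (G := L' ≃ₐ[E] L') (M := L'ˣ) _ h1
    exact ⟨fun x => Additive.toMul (c.1 x), b, fun g h => hb g h,
      fun h₁ h₂ => congrArg Additive.toMul (hreal h₁ h₂)⟩
  have hζ'p : ζ' ^ p = 1 := by
    refine Units.ext (Subtype.ext ?_)
    show (((ζ' : L') : PadicAlgCl q)) ^ p = 1
    rw [hζ', hζ.pow_eq_one]
  -- the values of `c` are `p`-th roots of unity
  have hcp : ∀ g h : L' ≃ₐ[E] L', C (g, h) ^ p = 1 := by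
    intro g h
    obtain ⟨h₁, rfl⟩ := resE_surjective E L' g
    obtain ⟨h₂, rfl⟩ := resE_surjective E L' h
    rw [hreal' h₁ h₂, ← pow_mul, mul_comm, pow_mul, hζ'p, one_pow]
  -- `b ^ p` is a 1-cocycle, hence a coboundary (Hilbert 90)
  have hbp : ∀ g h : L' ≃ₐ[E] L',
      b (g * h) ^ p = Units.map (g : L' →* L') (b h ^ p) * b g ^ p := by
    intro g h
    have h1 := congrArg (· ^ p) (hb g h)
    simp only [hcp, mul_pow, div_pow] at h1
    rw [map_pow]
    rw [div_mul_eq_mul_div, div_eq_one] at h1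
    exact h1.symm
  obtain ⟨a, ha⟩ := hilbert90_units (fun g => b g ^ p) hbp
  -- a `p`-th root `α` of `a`
  obtain ⟨α, hα⟩ := IsAlgClosed.exists_pow_nat_eq (((a : L') : PadicAlgCl q)) hp.pos
  have ha0 : ((a : L') : PadicAlgCl q) ≠ 0 := fun h0 => a.ne_zero (Subtype.ext h0)
  have hα0 : α ≠ 0 := by
    rintro rfl
    rw [zero_pow hp.ne_zero] at hα
    exact ha0 hα.symm
  have hB0 : ∀ g : L' ≃ₐ[E] L', (((b g : L') : L') : PadicAlgCl q) ≠ 0 :=
    fun g h0 => (b g).ne_zero (Subtype.ext h0)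
  -- `h a = b (h|L') ^ p * a`
  have ha' : ∀ h : E.fixingSubgroup,
      (h : PadicAlgCl q ≃ₐ[ℚ_[q]] PadicAlgCl q) ((a : L') : PadicAlgCl q)
        = ((b (resE E L' h) : L') : PadicAlgCl q) ^ p * ((a : L') : PadicAlgCl q) := by
    intro h
    have h1 := ha (resE E L' h)
    rw [div_eq_iff_eq_mul] at h1
    have h2 := congrArg (fun x : L'ˣ => ((x : L') : PadicAlgCl q)) h1
    rw [← resE_apply]
    simpa using h2
  -- the `μ_p`-valued cochain `u h = b (h|L') * α / h α`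
  have hu : ∀ h : E.fixingSubgroup, ∃ i : ℕ, i < p ∧
      ζ ^ i = ((b (resE E L' h) : L') : PadicAlgCl q) * α
        / (h : PadicAlgCl q ≃ₐ[ℚ_[q]] PadicAlgCl q) α := by
    intro h
    have hhα0 : (h : PadicAlgCl q ≃ₐ[ℚ_[q]] PadicAlgCl q) α ≠ 0 := by
      simpa using hα0
    have h1 : (((b (resE E L' h) : L') : PadicAlgCl q) * α
        / (h : PadicAlgCl q ≃ₐ[ℚ_[q]] PadicAlgCl q) α) ^ p = 1 := by
      rw [div_pow, mul_pow, ← map_pow, hα, ha', div_self]
      exact mul_ne_zero (pow_ne_zero _ (hB0 _)) ha0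
    have : NeZero p := ⟨hp.ne_zero⟩
    obtain ⟨i, hi, hiu⟩ := hζ.eq_pow_of_pow_eq_one h1
    exact ⟨i, hi, hiu⟩
  choose i hi hiu using hu
  refine ⟨fun h => (i h : ZMod p), ?_, ?_⟩
  · -- level-constancy, from (LVL)(b) for `L'(α)`
    have hL'fin : FiniteDimensional ℚ_[q] L' := FiniteDimensional.trans ℚ_[q] E L'
    let L : IntermediateField ℚ_[q] (PadicAlgCl q) :=
      L'.restrictScalars ℚ_[q] ⊔ IntermediateField.adjoin ℚ_[q] {α}
    have hLfin : FiniteDimensional ℚ_[q] L := by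
      have : FiniteDimensional ℚ_[q] (L'.restrictScalars ℚ_[q]) := hL'fin
      have : FiniteDimensional ℚ_[q] (IntermediateField.adjoin ℚ_[q] {α}) :=
        IntermediateField.adjoin.finiteDimensional (Algebra.IsIntegral.isIntegral α)
      exact IntermediateField.finiteDimensional_sup _ _
    obtain ⟨F, hF, -, hFL⟩ := hL.2.1 L hLfin
    refine ⟨F, hF, fun h n hn => ?_⟩
    have hnL := hFL hn
    have hnα : (n : PadicAlgCl q ≃ₐ[ℚ_[q]] PadicAlgCl q) α = α :=
      (IntermediateField.mem_fixingSubgroup_iff L _).mp hnL α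
        ((le_sup_right : IntermediateField.adjoin ℚ_[q] {α} ≤ L)
          (IntermediateField.subset_adjoin ℚ_[q] {α} rfl))
    have hnL' : ∀ x : L', (n : PadicAlgCl q ≃ₐ[ℚ_[q]] PadicAlgCl q) (x : PadicAlgCl q) = x :=
      fun x => (IntermediateField.mem_fixingSubgroup_iff L _).mp hnL x
        ((le_sup_left : L'.restrictScalars ℚ_[q] ≤ L) x.2)
    have hres : resE E L' (h * n) = resE E L' h := by
      rw [map_mul, resE_eq_one E L' hnL', mul_one]
    have h1 : ζ ^ i (h * n) = ζ ^ i h := by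
      rw [hiu, hiu, hres]
      simp [hnα]
    exact congrArg _ (hζ.pow_inj (hi _) (hi _) h1)
  · intro h₁ h₂
    have hζfix : (h₁ : PadicAlgCl q ≃ₐ[ℚ_[q]] PadicAlgCl q) ζ = ζ :=
      (IntermediateField.mem_fixingSubgroup_iff E _).mp h₁.2 ζ hζE
    have hα1 : (h₁ : PadicAlgCl q ≃ₐ[ℚ_[q]] PadicAlgCl q) α ≠ 0 := by simpa using hα0
    have hα12 : (h₁ : PadicAlgCl q ≃ₐ[ℚ_[q]] PadicAlgCl q)
        ((h₂ : PadicAlgCl q ≃ₐ[ℚ_[q]] PadicAlgCl q) α) ≠ 0 := by simpa using hα0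
    -- the coboundary relation in `Ω`
    have hbΩ : (h₁ : PadicAlgCl q ≃ₐ[ℚ_[q]] PadicAlgCl q)
          ((b (resE E L' h₂) : L') : PadicAlgCl q) * ((b (resE E L' h₁) : L') : PadicAlgCl q)
        = ζ ^ (f (h₁, h₂)).val * ((b (resE E L' (h₁ * h₂)) : L') : PadicAlgCl q) := by
      have h1 := (hb (resE E L' h₁) (resE E L' h₂)).trans (hreal' h₁ h₂)
      rw [← map_mul, div_mul_eq_mul_div, div_eq_iff_eq_mul] at h1
      have h2 := congrArg (fun x : L'ˣ => ((x : L') : PadicAlgCl q)) h1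
      rw [← resE_apply, ← hζ']
      simpa using h2
    have e1 := hiu h₁
    have e2 : ζ ^ i h₂ = (h₁ : PadicAlgCl q ≃ₐ[ℚ_[q]] PadicAlgCl q)
          ((b (resE E L' h₂) : L') : PadicAlgCl q)
        * (h₁ : PadicAlgCl q ≃ₐ[ℚ_[q]] PadicAlgCl q) α
        / (h₁ : PadicAlgCl q ≃ₐ[ℚ_[q]] PadicAlgCl q)
          ((h₂ : PadicAlgCl q ≃ₐ[ℚ_[q]] PadicAlgCl q) α) := by
      have h1 := congrArg (h₁ : PadicAlgCl q ≃ₐ[ℚ_[q]] PadicAlgCl q) (hiu h₂)
      rw [map_pow, hζfix, map_div₀, map_mul] at h1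
      exact h1
    have e12 : ζ ^ i (h₁ * h₂) = ((b (resE E L' (h₁ * h₂)) : L') : PadicAlgCl q) * α
        / (h₁ : PadicAlgCl q ≃ₐ[ℚ_[q]] PadicAlgCl q)
          ((h₂ : PadicAlgCl q ≃ₐ[ℚ_[q]] PadicAlgCl q) α) := by
      rw [hiu (h₁ * h₂)]
      rfl
    have key : ζ ^ (i h₂ + i h₁) = ζ ^ ((f (h₁, h₂)).val + i (h₁ * h₂)) := by
      rw [pow_add, pow_add, e1, e2, e12]
      field_simp
      linear_combination hbΩ
    have h3 : (i h₂ + i h₁) ≡ ((f (h₁, h₂)).val + i (h₁ * h₂)) [MOD p] := by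
      refine hζ.pow_inj (Nat.mod_lt _ hp.pos) (Nat.mod_lt _ hp.pos) ?_
      have hmod : ∀ n : ℕ, ζ ^ (n % p) = ζ ^ n := fun n => by
        conv_rhs => rw [← Nat.mod_add_div n p, pow_add, pow_mul, hζ.pow_eq_one, one_pow, mul_one]
      rw [hmod, hmod]
      exact key
    have h4 := (ZMod.natCast_eq_natCast_iff _ _ _).mpr h3
    push_cast at h4
    rw [ZMod.natCast_zmod_val] at h4
    show f (h₁, h₂) = (i h₂ : ZMod p) - (i (h₁ * h₂) : ZMod p) + (i h₁ : ZMod p)
    linear_combination -h4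

end Fermat.Agent.S55.H65
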