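/-
S55 / Program C, package C5, leaf (B2) = (FIN), core  (helper65).

For a number field `k` and `x ∈ kˣ` there is `M ≠ 0` such that `‖τ x‖ = 1` for every prime `q ∤ M`
and every embedding `τ : k →+* PadicAlgCl q` (product formula for integers prime to `q`).
Also: the set of places of `k` above `q` is finite.
-/
import Mathlib
import Fermat.Agent.S55.H65.LocalPow

set_option autoImplicit false

namespace Fermat.Agent.S55.H65

open NumberField Fermat.Agent.S55.H88

variable {k : Type*} [Field k] [NumberField k]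

/-- If the norm of the integer `x` is prime to `q`, then `x` is a unit at every embedding into
`PadicAlgCl q`. -/
theorem norm_eq_one_of_not_dvd_norm {q : ℕ} [Fact q.Prime] (x : 𝓞 k)
    (h : ¬ (q : ℤ) ∣ Algebra.norm ℤ x) (τ : k →+* PadicAlgCl q) : ‖τ (x : k)‖ = 1 := by
  classical
  have h1 := Algebra.norm_eq_prod_embeddings ℚ (PadicAlgCl q) (x : k)
  rw [← Algebra.coe_norm_int, map_intCast] at h1
  have h2 := congrArg norm h1
  rw [norm_prod] at h2
  have hN : ‖((Algebra.norm ℤ x : ℤ) : PadicAlgCl q)‖ = 1 := by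
    have h3 : ((Algebra.norm ℤ x : ℤ) : PadicAlgCl q)
        = algebraMap ℚ_[q] (PadicAlgCl q) ((Algebra.norm ℤ x : ℤ) : ℚ_[q]) := by simp
    rw [h3, PadicAlgCl.norm_extends]
    refine le_antisymm (Padic.norm_int_le_one _) (not_lt.mp fun hlt => h ?_)
    exact Padic.norm_intCast_lt_one_iff.mp hlt
  rw [hN] at h2
  by_contra hne
  have hlt : ‖τ (x : k)‖ < 1 := lt_of_le_of_ne (norm_integer_le_one τ x) hne
  have h3 : ∏ σ : k →ₐ[ℚ] PadicAlgCl q, ‖σ (x : k)‖ < 1 := by
    rw [← Finset.mul_prod_erase Finset.univ _ (Finset.mem_univ τ.toRatAlgHom)]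
    calc ‖τ.toRatAlgHom (x : k)‖
          * ∏ σ ∈ Finset.univ.erase τ.toRatAlgHom, ‖σ (x : k)‖
        ≤ ‖τ.toRatAlgHom (x : k)‖ * 1 :=
          mul_le_mul_of_nonneg_left
            (Finset.prod_le_one (fun _ _ => norm_nonneg _)
              (fun σ _ => norm_integer_le_one σ.toRingHom x)) (norm_nonneg _)
      _ < 1 := by rw [mul_one]; exact hlt
  rw [← h2] at h3
  exact lt_irrefl _ h3

/-- **(FIN), core**: a nonzero element of a number field is a unit at all embeddings into
`PadicAlgCl q` for all primes `q` outside the divisors of some `M ≠ 0`. -/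
theorem exists_forall_norm_eq_one (x : kˣ) :
    ∃ M : ℕ, M ≠ 0 ∧ ∀ (q : ℕ) [Fact q.Prime], ¬ q ∣ M →
      ∀ τ : k →+* PadicAlgCl q, ‖τ (x : k)‖ = 1 := by
  obtain ⟨r, s, hs, hrs⟩ := IsFractionRing.div_surjective (A := 𝓞 k) (x : k)
  have hs0 : s ≠ 0 := nonZeroDivisors.ne_zero hs
  have hr0 : r ≠ 0 := by
    rintro rfl
    rw [map_zero, zero_div] at hrs
    exact x.ne_zero hrs.symm
  refine ⟨(Algebra.norm ℤ r).natAbs * (Algebra.norm ℤ s).natAbs, ?_, ?_⟩
  · exact mul_ne_zero (Int.natAbs_ne_zero.mpr (Algebra.norm_ne_zero_iff.mpr hr0))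
      (Int.natAbs_ne_zero.mpr (Algebra.norm_ne_zero_iff.mpr hs0))
  · intro q _ hq τ
    have hr : ¬ (q : ℤ) ∣ Algebra.norm ℤ r := fun h =>
      hq (Dvd.dvd.mul_right (Int.natCast_dvd.mp h) _)
    have hs' : ¬ (q : ℤ) ∣ Algebra.norm ℤ s := fun h =>
      hq (Dvd.dvd.mul_left (Int.natCast_dvd.mp h) _)
    have h1 : ‖τ (algebraMap (𝓞 k) k r)‖ = 1 := norm_eq_one_of_not_dvd_norm r hr τ
    have h2 : ‖τ (algebraMap (𝓞 k) k s)‖ = 1 := norm_eq_one_of_not_dvd_norm s hs' τ
    rw [← hrs, map_div₀, norm_div, h1, h2, div_one]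

/-- There are finitely many places of a number field above a prime `q`. -/
theorem finite_placeAbove (q : ℕ) [Fact q.Prime] (k : Type*) [Field k] [NumberField k] :
    Finite (PlaceAbove q k) :=
  Quotient.finite _

end Fermat.Agent.S55.H65
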