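/-
S55 / Program C, package C4 (helper26's plan), leaf (ROOT) = task 410  (helper65).

`RootExtractStatement p q` VERBATIM, from `LocalFieldLevelsStatement q`:
a class `y` of `H²(Gal(L₁/E), L₁ˣ)` killed by `p` is, after inflation to a finite Galois
`L₂ ⊇ L₁`, the class of a `μ_p`-valued cocycle `ζ ^ f`, with `f` a level-constant 2-cocycle of
`H = Gal(Ω/E)`.  If `c₁` represents `y` and `p • c₁ = d b`, take `L₂` normal over `E` containing
`L₁` and `p`-th roots `β g` of the `b g`; then `c₂ := infl c₁ - d (β ∘ res)` is killed by `p`.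
-/
import Fermat.Agent.S55.H65.KummerDescent

set_option autoImplicit false

open CategoryTheory groupCohomology

namespace Fermat.Agent.S55.H65

open Fermat.Agent.S55.H49 Fermat.Agent.S55.H26 Fermat.Agent.S55.H66

section

variable {q : ℕ} [Fact q.Prime]

/-- A finite Galois extension of `E` in `Ω` containing `L₁` and a `p`-th root of each member of
a finite family of elements of `Ω`. -/
theorem exists_galois_roots (p : ℕ) (hp : 0 < p) (E : IntermediateField ℚ_[q] (PadicAlgCl q))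
    (L₁ : IntermediateField E (PadicAlgCl q)) [FiniteDimensional E L₁]
    {ι : Type} [Finite ι] (b : ι → PadicAlgCl q) :
    ∃ L₂ : IntermediateField E (PadicAlgCl q), FiniteDimensional E L₂ ∧ IsGalois E L₂ ∧
      L₁ ≤ L₂ ∧ ∀ i, ∃ y ∈ L₂, y ^ p = b i := by
  classical
  have hroot : ∀ i, ∃ y : PadicAlgCl q, y ^ p = b i := fun i =>
    IsAlgClosed.exists_pow_nat_eq (b i) hp
  choose β hβ using hroot
  let K : IntermediateField E (PadicAlgCl q) := L₁ ⊔ IntermediateField.adjoin E (Set.range β)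
  have hfin0 : FiniteDimensional E (IntermediateField.adjoin E (Set.range β)) :=
    IntermediateField.finiteDimensional_adjoin (fun x _ => Algebra.IsIntegral.isIntegral x)
  have hfinK : FiniteDimensional E K := IntermediateField.finiteDimensional_sup _ _
  refine ⟨IntermediateField.normalClosure E K (PadicAlgCl q), inferInstance, ⟨⟩, ?_, ?_⟩
  · exact le_sup_left.trans (IntermediateField.le_normalClosure K)
  · intro i
    refine ⟨β i, IntermediateField.le_normalClosure K ?_, hβ i⟩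
    exact (le_sup_right : IntermediateField.adjoin E (Set.range β) ≤ K)
      (IntermediateField.subset_adjoin E _ ⟨i, rfl⟩)

/-- `p`-divisibility, in `L₂ˣ`, of the image of an element of `L₁ˣ` with a `p`-th root in `L₂`. -/
theorem exists_nsmul_eq_inflRep (p : ℕ) (hp : p ≠ 0) (E : IntermediateField ℚ_[q] (PadicAlgCl q))
    (L₁ L₂ : IntermediateField E (PadicAlgCl q)) [Normal E L₁] (hle : L₁ ≤ L₂)
    (b : Rep.ofAlgebraAutOnUnits E L₁)
    (hroot : ∃ y ∈ L₂, y ^ p = (((Additive.toMul (Rep.toAdditive b) : L₁ˣ) : L₁) : PadicAlgCl q)) :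
    ∃ x : Rep.ofAlgebraAutOnUnits E L₂, p • x = (inflRep hle).hom b := by
  obtain ⟨y, hyL, hy⟩ := hroot
  have hy0 : (⟨y, hyL⟩ : L₂) ≠ 0 := by
    intro h0
    have h1 : y = 0 := congrArg Subtype.val h0
    rw [h1, zero_pow hp] at hy
    exact (Additive.toMul (Rep.toAdditive b) : L₁ˣ).ne_zero (Subtype.ext hy.symm)
  refine ⟨Rep.toAdditive.symm (Additive.ofMul (Units.mk0 ⟨y, hyL⟩ hy0)), ?_⟩
  have h2 : (Units.mk0 (⟨y, hyL⟩ : L₂) hy0) ^ p
      = Units.map ((IntermediateField.inclusion hle : L₁ →ₐ[E] L₂) : L₁ →* L₂)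
          (Additive.toMul (Rep.toAdditive b) : L₁ˣ) := by
    refine Units.ext (Subtype.ext ?_)
    simpa using hy
  exact congrArg (fun u : L₂ˣ => Rep.toAdditive.symm (Additive.ofMul u)) h2

end

/-- The abstract step: if `p • c₁ = d b'` and `φ ∘ b' = p • β'`, then `infl c₁ - d (β' ∘ f)` is a
cocycle in the class of the inflation of `c₁`, with values killed by `p`. -/
theorem exists_cocycle_torsion {G H : Type} [Group G] [Group H] (f : G →* H) {A : Rep ℤ H}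
    {B : Rep ℤ G} (φ : Rep.res f A ⟶ B) (p : ℕ) (c₁ : cocycles₂ A) (b' : H → A)
    (hb' : (d₁₂ A).hom b' = ⇑(p • c₁)) (β' : H → B) (hβ' : ∀ g, p • β' g = φ.hom (b' g)) :
    ∃ c : cocycles₂ B, H2π B c = (map f φ 2).hom (H2π A c₁) ∧
      ∀ σ τ : G, p • c.1 (σ, τ) = 0 := by
  let x₀ : G → B := fun σ => β' (f σ)
  let d0 : cocycles₂ B := ⟨(d₁₂ B).hom x₀, coboundaries₂_le_cocycles₂ _ ⟨x₀, rfl⟩⟩
  have hd0 : H2π B d0 = 0 := (H2π_eq_zero_iff d0).mpr ⟨x₀, rfl⟩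
  refine ⟨mapCocycles₂ f φ c₁ - d0, ?_, ?_⟩
  · rw [map_sub, hd0, sub_zero]
    exact (H2π_comp_map_apply f φ c₁).symm
  · intro σ τ
    have e1 : (p • c₁).1 (f σ, f τ) = A.ρ (f σ) (b' (f τ)) - b' (f σ * f τ) + b' (f σ) :=
      (congrFun hb' (f σ, f τ)).symm.trans rfl
    have e2 : φ.hom (A.ρ (f σ) (b' (f τ))) = B.ρ σ (φ.hom (b' (f τ))) :=
      Rep.hom_comm_apply φ σ (b' (f τ))
    show p • (φ.hom (c₁.1 (f σ, f τ)) - (B.ρ σ (β' (f τ)) - β' (f (σ * τ)) + β' (f σ))) = 0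
    rw [smul_sub, smul_add, smul_sub, ← map_nsmul, ← map_nsmul, hβ', hβ', hβ', map_mul, ← e2]
    have e3 : p • c₁.1 (f σ, f τ) = (p • c₁).1 (f σ, f τ) := rfl
    rw [e3, e1, map_add, map_sub, sub_self]

/-- Exponents of a primitive root are determined modulo its order. -/
theorem natCast_eq_of_pow_eq {K : Type*} [CommMonoid K] {ζ : K} {p : ℕ} (hp : 0 < p)
    (hζ : IsPrimitiveRoot ζ p) {a b : ℕ} (h : ζ ^ a = ζ ^ b) : (a : ZMod p) = b := by
  have hmod : ∀ n : ℕ, ζ ^ (n % p) = ζ ^ n := fun n => by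
    conv_rhs => rw [← Nat.mod_add_div n p, pow_add, pow_mul, hζ.pow_eq_one, one_pow, mul_one]
  have h3 : a ≡ b [MOD p] := by
    refine hζ.pow_inj (Nat.mod_lt _ hp) (Nat.mod_lt _ hp) ?_
    rw [hmod, hmod]
    exact h
  exact (ZMod.natCast_eq_natCast_iff _ _ _).mpr h3

theorem natCast_add_eq_of_pow_mul_eq {K : Type*} [CommMonoid K] {ζ : K} {p : ℕ} (hp : 0 < p)
    (hζ : IsPrimitiveRoot ζ p) {a b c d : ℕ} (h : ζ ^ a * ζ ^ b = ζ ^ c * ζ ^ d) :
    (a : ZMod p) + b = c + d := by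
  rw [← pow_add, ← pow_add] at h
  have := natCast_eq_of_pow_eq hp hζ h
  push_cast at this
  exact this

set_option maxHeartbeats 1000000 in
/-- A 2-cocycle of `Gal(L₂/E)` in `L₂ˣ` with values killed by `p` is `ζ ^ f`, for a
level-constant 2-cocycle `f` of `Gal(Ω/E)` with trivial coefficients `𝔽_p`. -/
theorem exists_realises_of_torsion (p : ℕ) [Fact p.Prime] (q : ℕ) [Fact q.Prime]
    (hL : LocalFieldLevelsStatement q) (ζ : PadicAlgCl q) (hζ : IsPrimitiveRoot ζ p)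
    (E : IntermediateField ℚ_[q] (PadicAlgCl q)) [FiniteDimensional ℚ_[q] E] (hζE : ζ ∈ E)
    (L₂ : IntermediateField E (PadicAlgCl q)) [FiniteDimensional E L₂] [IsGalois E L₂]
    (c : cocycles₂ (Rep.ofAlgebraAutOnUnits E L₂))
    (hc : ∀ σ τ : L₂ ≃ₐ[E] L₂, p • c.1 (σ, τ) = 0) :
    ∃ (ζ₂ : L₂ˣ) (f : E.fixingSubgroup × E.fixingSubgroup → ZMod p),
      ((ζ₂ : L₂) : PadicAlgCl q) = ζ ∧ Realises p q E L₂ ζ₂ f c ∧
      IsLevelFun₂ (Dloc q) E.fixingSubgroup f ∧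
      ∀ h₁ h₂ h₃ : E.fixingSubgroup,
        f (h₂, h₃) - f (h₁ * h₂, h₃) + f (h₁, h₂ * h₃) - f (h₁, h₂) = 0 := by
  classical
  have hp : p.Prime := Fact.out
  -- the root of unity in `L₂`
  have hζ0 : (algebraMap E L₂ ⟨ζ, hζE⟩ : L₂) ≠ 0 := by
    intro h0
    have h1 : ((algebraMap E L₂ ⟨ζ, hζE⟩ : L₂) : PadicAlgCl q) = 0 := by rw [h0]; rfl
    exact hζ.ne_zero hp.ne_zero h1
  let ζ₂ : L₂ˣ := Units.mk0 _ hζ0
  have hζ₂ : ((ζ₂ : L₂) : PadicAlgCl q) = ζ := rfl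
  have hfix : ∀ g : L₂ ≃ₐ[E] L₂, Units.map (g : L₂ →* L₂) ζ₂ = ζ₂ := by
    intro g
    refine Units.ext ?_
    show g (algebraMap E L₂ ⟨ζ, hζE⟩) = algebraMap E L₂ ⟨ζ, hζE⟩
    exact g.commutes _
  -- the cocycle in multiplicative notation
  obtain ⟨C, hC, hCcoc, hCp⟩ : ∃ C : (L₂ ≃ₐ[E] L₂) × (L₂ ≃ₐ[E] L₂) → L₂ˣ,
      (∀ x, c.1 x = Rep.toAdditive.symm (Additive.ofMul (C x))) ∧
      (∀ g h j : L₂ ≃ₐ[E] L₂, C (g * h, j) * C (g, h)
        = Units.map (g : L₂ →* L₂) (C (h, j)) * C (g, h * j)) ∧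
      ∀ σ τ, C (σ, τ) ^ p = 1 := by
    refine ⟨fun x => Additive.toMul (Rep.toAdditive (c.1 x)), fun x => rfl, ?_, ?_⟩
    · exact fun g h j =>
        isMulCocycle₂_of_mem_cocycles₂ (G := L₂ ≃ₐ[E] L₂) (M := L₂ˣ) c.1 c.2 g h j
    · intro σ τ
      exact congrArg (fun a => Additive.toMul (Rep.toAdditive a)) (hc σ τ)
  -- exponents
  have hexp : ∀ x, ∃ i : ℕ, i < p ∧ C x = ζ₂ ^ i := by
    intro x
    have h1 : (((C x : L₂ˣ) : L₂) : PadicAlgCl q) ^ p = 1 := by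
      have := congrArg (fun u : L₂ˣ => ((u : L₂) : PadicAlgCl q)) (hCp x.1 x.2)
      simpa using this
    have : NeZero p := ⟨hp.ne_zero⟩
    obtain ⟨i, hi, hiu⟩ := hζ.eq_pow_of_pow_eq_one h1
    refine ⟨i, hi, Units.ext (Subtype.ext ?_)⟩
    rw [← hiu]
    simp [hζ₂]
  choose e he hCe using hexp
  refine ⟨ζ₂, fun hh => (e (resE E L₂ hh.1, resE E L₂ hh.2) : ZMod p), hζ₂, ?_, ?_, ?_⟩
  · -- `Realises`
    intro h₁ h₂
    show c.1 (resE E L₂ h₁, resE E L₂ h₂) = Rep.toAdditive.symm (Additive.ofMul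
      (ζ₂ ^ ((e (resE E L₂ h₁, resE E L₂ h₂) : ZMod p)).val))
    rw [ZMod.val_cast_of_lt (he _), ← hCe, hC]
  · -- level-constancy, from (LVL)(b) for `L₂`
    have hL₂fin : FiniteDimensional ℚ_[q] L₂ := FiniteDimensional.trans ℚ_[q] E L₂
    obtain ⟨F, hF, -, hFL⟩ := hL.2.1 (L₂.restrictScalars ℚ_[q]) hL₂fin
    refine ⟨F, hF, fun h₁ h₂ n₁ n₂ hn₁ hn₂ => ?_⟩
    have key : ∀ n : E.fixingSubgroup,
        (n : PadicAlgCl q ≃ₐ[ℚ_[q]] PadicAlgCl q) ∈ (Dloc q).sub F → resE E L₂ n = 1 := by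
      intro n hn
      refine resE_eq_one E L₂ (fun x => ?_)
      exact (IntermediateField.mem_fixingSubgroup_iff _ _).mp (hFL hn) x x.2
    show ((e (resE E L₂ (h₁ * n₁), resE E L₂ (h₂ * n₂)) : ℕ) : ZMod p) = _
    rw [MonoidHom.map_mul (resE E L₂) h₁ n₁, MonoidHom.map_mul (resE E L₂) h₂ n₂, key n₁ hn₁,
      key n₂ hn₂, mul_one, mul_one]
  · -- the cocycle identity
    intro h₁ h₂ h₃
    have h1 := hCcoc (resE E L₂ h₁) (resE E L₂ h₂) (resE E L₂ h₃)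
    rw [hCe, hCe, hCe, hCe, MonoidHom.map_pow, hfix] at h1
    have h2 := congrArg (fun u : L₂ˣ => ((u : L₂) : PadicAlgCl q)) h1
    simp only [Units.val_mul, MulMemClass.coe_mul, Units.val_pow_eq_pow_val,
      SubmonoidClass.coe_pow, hζ₂] at h2
    have h3 := natCast_add_eq_of_pow_mul_eq hp.pos hζ h2
    show ((e (resE E L₂ h₂, resE E L₂ h₃) : ℕ) : ZMod p)
      - ((e (resE E L₂ (h₁ * h₂), resE E L₂ h₃) : ℕ) : ZMod p)
      + ((e (resE E L₂ h₁, resE E L₂ (h₂ * h₃)) : ℕ) : ZMod p)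
      - ((e (resE E L₂ h₁, resE E L₂ h₂) : ℕ) : ZMod p) = 0
    have hm12 : resE E L₂ (h₁ * h₂) = resE E L₂ h₁ * resE E L₂ h₂ := map_mul _ _ _
    have hm23 : resE E L₂ (h₂ * h₃) = resE E L₂ h₂ * resE E L₂ h₃ := map_mul _ _ _
    rw [hm12, hm23]
    linear_combination -h3

set_option maxHeartbeats 1000000 in
/-- **Leaf (ROOT)** of C4: extraction of `p`-th roots, from the dictionary between levels and
finite extensions of `ℚ_q`. -/
theorem rootExtractStatement (p : ℕ) [Fact p.Prime] (q : ℕ) [Fact q.Prime]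
    (hL : LocalFieldLevelsStatement q) : RootExtractStatement p q := by
  intro ζ hζ E _ hζE L₁ _ _ y hy
  classical
  have hp : p.Prime := Fact.out
  -- a cocycle `c₁` representing `y`; `p • c₁ = d b'`
  induction y using groupCohomology.H2_induction_on with
  | h c₁ =>
  have h1 : ⇑(p • c₁) ∈ coboundaries₂ (Rep.ofAlgebraAutOnUnits E L₁) := by
    rw [← H2π_eq_zero_iff, map_nsmul]
    exact hy
  obtain ⟨b', hb'⟩ := h1
  -- the field `L₂`
  obtain ⟨L₂, hfin₂, hgal₂, hle, hroot⟩ := exists_galois_roots (q := q) p hp.pos E L₁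
    (fun g : L₁ ≃ₐ[E] L₁ =>
      (((Additive.toMul (Rep.toAdditive (b' g)) : L₁ˣ) : L₁) : PadicAlgCl q))
  have hβ : ∀ g : L₁ ≃ₐ[E] L₁, ∃ x : Rep.ofAlgebraAutOnUnits E L₂,
      p • x = (inflRep hle).hom (b' g) :=
    fun g => exists_nsmul_eq_inflRep p hp.ne_zero E L₁ L₂ hle (b' g) (hroot g)
  choose β' hβ' using hβ
  obtain ⟨c, hclass, hctors⟩ :=
    exists_cocycle_torsion (resHom hle) (inflRep hle) p c₁ b' hb' β' hβ'
  obtain ⟨ζ₂, f, hζ₂, hreal, hlev, hcoc⟩ :=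
    exists_realises_of_torsion p q hL ζ hζ E hζE L₂ c hctors
  exact ⟨L₂, hfin₂, hgal₂, hle, ζ₂, f, c, hζ₂, hreal, hclass, hlev, hcoc⟩

end Fermat.Agent.S55.H65
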