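/-
S55 / Program C, package C8 (helper29's SPEC v2 part 3), leaf (CYC-H3) = task 572  (helper65).

`H29.CycH3Statement` VERBATIM: `H³(Gal(K/k), Kˣ) = 0` for a cyclic Galois layer of number
fields — periodicity of the cohomology of a finite cyclic group (`H73`) and Hilbert 90.
-/
import Fermat.Agent.S55.H29.C8Cls
import Fermat.Agent.S55.H73.Twin3

set_option autoImplicit false

open CategoryTheory groupCohomology

namespace Fermat.Agent.S55.H65

/-- **Leaf (CYC-H3)** of C8/B4. -/
theorem cycH3Statement : Fermat.Agent.S55.H29.CycH3Statement := by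
  intro k K _ _ _ _ _ _ _
  have hfin : FiniteDimensional k K := Module.Finite.of_restrictScalars_finite ℚ k K
  have hF : Finite (K ≃ₐ[k] K) := inferInstance
  refine Fermat.Agent.S55.H73.isZero_H3_of_isZero_H1_of_isCyclic
    (Rep.ofAlgebraAutOnUnits k K) ?_
  have hU : Subsingleton (H1 (Rep.ofAlgebraAutOnUnits k K)) :=
    (H1ofAutOnUnitsUnique k K).instSubsingleton
  exact ModuleCat.isZero_of_subsingleton _

end Fermat.Agent.S55.H65
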