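/-
S55 / Program C, package C4, step (1) of leaf (CMP)  (helper65, for helper3 / helper26).

Restriction `H²(Gal(E/F), Eˣ) → H²(Gal(E/L), Eˣ)` is SURJECTIVE for a tower `F ⊆ L ⊆ E` of finite
extensions of `ℚ_q` (`E/F` Galois): from `LeafInv` (injectivity and image of the invariant) and
`LeafInvRes` (`inv ∘ res = [L:F] • inv`), because `ℚ/ℤ` is divisible.
-/
import Fermat.Agent.S55.H66.InvSpec

set_option autoImplicit false

open CategoryTheory groupCohomology IntermediateField

namespace Fermat.Agent.S55.H65

open Fermat.Agent.S55.H66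

/-- `ℚ/ℤ` is divisible. -/
theorem qz_exists_nsmul_eq (n : ℕ) (hn : n ≠ 0) (t : QZ) : ∃ s : QZ, n • s = t := by
  induction t using QuotientAddGroup.induction_on with
  | H r =>
    refine ⟨((r / n : ℚ) : QZ), ?_⟩
    rw [← AddCircle.coe_nsmul]
    congr 1
    have hn' : (n : ℚ) ≠ 0 := Nat.cast_ne_zero.mpr hn
    rw [nsmul_eq_mul]
    field_simp

variable {q : ℕ} [Fact q.Prime]

/-- The degree of `E` over `L` is the degree of `extendScalars h` over `L`. -/
theorem finrank_mul_finrank_extendScalars {F : Type} [Field F] [Algebra F (PadicAlgCl q)]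
    (L E : IntermediateField F (PadicAlgCl q)) (h : L ≤ E) :
    Module.finrank F L * Module.finrank L (extendScalars h) = Module.finrank F E := by
  rw [Module.finrank_mul_finrank F L (extendScalars h)]
  exact (upEquiv h).toLinearEquiv.finrank_eq

/-- **Restriction is surjective on `H²`** of the multiplicative group, for finite extensions
of `ℚ_q`. -/
theorem resH2_surjective (hInv : LeafInv q) (hRes : LeafInvRes q)
    (F : Type) [Field F] [Algebra ℚ_[q] F] [Algebra F (PadicAlgCl q)]
    [IsScalarTower ℚ_[q] F (PadicAlgCl q)] [FiniteDimensional ℚ_[q] F]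
    (L E : IntermediateField F (PadicAlgCl q)) [FiniteDimensional F L]
    [FiniteDimensional F E] [IsGalois F E] (h : L ≤ E)
    [FiniteDimensional L (extendScalars h)] [IsGalois L (extendScalars h)]
    (y : groupCohomology.H2 (Rep.ofAlgebraAutOnUnits L (extendScalars h))) :
    ∃ u : groupCohomology.H2 (Rep.ofAlgebraAutOnUnits F E), (resH2 h).hom u = y := by
  obtain ⟨-, hinjL, himgL⟩ := hInv L (extendScalars h)
  obtain ⟨-, -, himgF⟩ := hInv F E
  have ht : Module.finrank L (extendScalars h) • inv q (extendScalars h) y = 0 :=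
    (himgL _).mp ⟨y, rfl⟩
  have hLF : Module.finrank F L ≠ 0 := Module.finrank_pos.ne'
  obtain ⟨s, hs⟩ := qz_exists_nsmul_eq (Module.finrank F L) hLF (inv q (extendScalars h) y)
  have hs0 : Module.finrank F E • s = 0 := by
    rw [← finrank_mul_finrank_extendScalars L E h, mul_comm, mul_smul, hs, ht]
  obtain ⟨u, hu⟩ := (himgF s).mpr hs0
  refine ⟨u, hinjL ?_⟩
  rw [hRes F L E h u, hu, hs]

/-- **Step (1) of (CMP)**: for `F ⊆ E ⊆ L` (`L/F` finite Galois) and `L'/E` normal with
`L' ⊆ L`, every class of `H²(Gal(L'/E), L'ˣ)` is, after inflation to `L/E`, the restriction of a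
class of `H²(Gal(L/F), Lˣ)`. -/
theorem exists_resH2_eq_inflH2 (hInv : LeafInv q) (hRes : LeafInvRes q)
    (F : Type) [Field F] [Algebra ℚ_[q] F] [Algebra F (PadicAlgCl q)]
    [IsScalarTower ℚ_[q] F (PadicAlgCl q)] [FiniteDimensional ℚ_[q] F]
    (E L : IntermediateField F (PadicAlgCl q)) [FiniteDimensional F E]
    [FiniteDimensional F L] [IsGalois F L] (h : E ≤ L)
    (L' : IntermediateField E (PadicAlgCl q)) [Normal E L'] (h' : L' ≤ extendScalars h)
    (y : groupCohomology.H2 (Rep.ofAlgebraAutOnUnits E L')) :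
    ∃ u : groupCohomology.H2 (Rep.ofAlgebraAutOnUnits F L),
      (resH2 h).hom u = (inflH2 h').hom y := by
  have hfin0 : FiniteDimensional F (extendScalars h) :=
    Module.Finite.equiv (upEquiv h).symm.toLinearEquiv
  have hfin : FiniteDimensional E (extendScalars h) := FiniteDimensional.right F E _
  have hgal0 : IsGalois F (extendScalars h) := IsGalois.of_algEquiv (upEquiv h).symm
  have hgal : IsGalois E (extendScalars h) := IsGalois.tower_top_of_isGalois F E _
  exact resH2_surjective hInv hRes F E L h ((inflH2 h').hom y)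

end Fermat.Agent.S55.H65
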