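/-
S55 / Program C, package C4, steps (1) + (4) of leaf (CMP)  (helper65, for helper3 / helper26).

For `F ⊆ E ⊆ L` finite over `ℚ_q` (`L/F` Galois) and `L'/E` finite Galois with `L' ⊆ L`:
if `u ∈ H²(Gal(L/F), Lˣ)` restricts to the inflation of `y ∈ H²(Gal(L'/E), L'ˣ)`, then
`inv_{L/F} ([E:F] • u) = inv_{L'/E} y`; and such a `u` exists.  So the comparison
`inv_F ∘ cores = inv_E` is reduced to the cochain statement `y' = [E:F] • u`.
-/
import Fermat.Agent.S55.H65.ResSurj

set_option autoImplicit false

open CategoryTheory groupCohomology IntermediateField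

namespace Fermat.Agent.S55.H65

open Fermat.Agent.S55.H66

variable {q : ℕ} [Fact q.Prime]

/-- **Step (4) of (CMP)**: `inv_{L/F} ([E:F] • u) = inv_{L'/E} y` when `res u = infl y`. -/
theorem inv_nsmul_eq_of_res_eq_infl (hRes : LeafInvRes q) (hInfl : LeafInvInfl q)
    (F : Type) [Field F] [Algebra ℚ_[q] F] [Algebra F (PadicAlgCl q)]
    [IsScalarTower ℚ_[q] F (PadicAlgCl q)] [FiniteDimensional ℚ_[q] F]
    (E L : IntermediateField F (PadicAlgCl q)) [FiniteDimensional F E]
    [FiniteDimensional F L] [IsGalois F L] (h : E ≤ L)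
    (L' : IntermediateField E (PadicAlgCl q)) [FiniteDimensional E L'] [IsGalois E L']
    (h' : L' ≤ extendScalars h)
    (y : groupCohomology.H2 (Rep.ofAlgebraAutOnUnits E L'))
    (u : groupCohomology.H2 (Rep.ofAlgebraAutOnUnits F L))
    (hu : (resH2 h).hom u = (inflH2 h').hom y) :
    inv q L (Module.finrank F E • u) = inv q L' y := by
  have hfin0 : FiniteDimensional F (extendScalars h) :=
    Module.Finite.equiv (upEquiv h).symm.toLinearEquiv
  have hfin : FiniteDimensional E (extendScalars h) := FiniteDimensional.right F E _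
  have hgal0 : IsGalois F (extendScalars h) := IsGalois.of_algEquiv (upEquiv h).symm
  have hgal : IsGalois E (extendScalars h) := IsGalois.tower_top_of_isGalois F E _
  rw [map_nsmul, ← hRes F E L h u, hu]
  exact hInfl E L' (extendScalars h) h' y

/-- **Steps (1) + (4) of (CMP)**: if `y'` equals `[E:F] • u` for every `u` restricting to the
inflation of `y`, then `inv_{L/F} y' = inv_{L'/E} y`. -/
theorem inv_eq_of_forall_res_eq_infl (hInv : LeafInv q) (hRes : LeafInvRes q)
    (hInfl : LeafInvInfl q)
    (F : Type) [Field F] [Algebra ℚ_[q] F] [Algebra F (PadicAlgCl q)]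
    [IsScalarTower ℚ_[q] F (PadicAlgCl q)] [FiniteDimensional ℚ_[q] F]
    (E L : IntermediateField F (PadicAlgCl q)) [FiniteDimensional F E]
    [FiniteDimensional F L] [IsGalois F L] (h : E ≤ L)
    (L' : IntermediateField E (PadicAlgCl q)) [FiniteDimensional E L'] [IsGalois E L']
    (h' : L' ≤ extendScalars h)
    (y : groupCohomology.H2 (Rep.ofAlgebraAutOnUnits E L'))
    (y' : groupCohomology.H2 (Rep.ofAlgebraAutOnUnits F L))
    (hy' : ∀ u : groupCohomology.H2 (Rep.ofAlgebraAutOnUnits F L),
      (resH2 h).hom u = (inflH2 h').hom y → y' = Module.finrank F E • u) :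
    inv q L y' = inv q L' y := by
  obtain ⟨u, hu⟩ := exists_resH2_eq_inflH2 hInv hRes F E L h L' h' y
  rw [hy' u hu]
  exact inv_nsmul_eq_of_res_eq_infl hRes hInfl F E L h L' h' y u hu

end Fermat.Agent.S55.H65
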