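/-
S55 / Program C, package C7 (second inequality, Kummer case), leaf (EX), part (EX-gal)  (helper65).

Mathlib only.  `L/k` finite Galois, `ζ ∈ k` a primitive `p`-th root of unity (`p` prime),
`α ^ p = a`, `β ^ p = y` in `L` with `a, y ∈ kˣ`.  If `y ∉ ⟨a⟩ · kˣᵖ` then some `g ∈ Gal(L/k)`
fixes `α` and moves `β`.
-/
import Mathlib

set_option autoImplicit false

namespace Fermat.Agent.S55.H65

section KummerSep

variable {k L : Type*} [Field k] [Field L] [Algebra k L]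

/-- Powers of an automorphism on an "eigenvector" with eigenvalue in the base field. -/
theorem pow_apply_of_apply_eq_mul (σ : L ≃ₐ[k] L) {ξ : k} {x : L}
    (h : σ x = algebraMap k L ξ * x) (t : ℕ) :
    (σ ^ t) x = algebraMap k L ξ ^ t * x := by
  induction t with
  | zero => simp
  | succ t ih =>
    rw [pow_succ', AlgEquiv.mul_apply, ih, map_mul, map_pow, AlgEquiv.commutes, h]
    ring

/-- If `x ^ p = y ^ p` with `y ≠ 0` then `x` is `y` times a power of a primitive `p`-th root of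
unity. -/
theorem exists_pow_mul_of_pow_eq {p : ℕ} [NeZero p] {ξ : L} (hξ : IsPrimitiveRoot ξ p) {x y : L}
    (hy : y ≠ 0) (h : x ^ p = y ^ p) : ∃ t : ℕ, t < p ∧ x = ξ ^ t * y := by
  have h1 : (x / y) ^ p = 1 := by
    rw [div_pow, h, div_self (pow_ne_zero p hy)]
  obtain ⟨t, ht, hxt⟩ := hξ.eq_pow_of_pow_eq_one h1
  refine ⟨t, ht, ?_⟩
  rw [hxt, div_mul_cancel₀ x hy]

/-- **(EX-gal)**: Kummer separation.  If `y` is not in `⟨a⟩ · kˣᵖ` then some element of the Galois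
group fixes the `p`-th root `α` of `a` and moves the `p`-th root `β` of `y`. -/
theorem exists_algEquiv_fix_move [FiniteDimensional k L] [IsGalois k L]
    {p : ℕ} (hp : p.Prime) {ζ : k} (hζ : IsPrimitiveRoot ζ p)
    {a y : kˣ} {α β : L} (hα : α ^ p = algebraMap k L a) (hβ : β ^ p = algebraMap k L y)
    (hy : y ∉ Subgroup.zpowers a ⊔ (powMonoidHom p : kˣ →* kˣ).range) :
    ∃ g : L ≃ₐ[k] L, g α = α ∧ g β ≠ β := by
  have : NeZero p := ⟨hp.ne_zero⟩
  have : Fact p.Prime := ⟨hp⟩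
  have hinj : Function.Injective (algebraMap k L) := (algebraMap k L).injective
  have hα0 : α ≠ 0 := by
    rintro rfl
    rw [zero_pow hp.ne_zero] at hα
    exact a.ne_zero (hinj (by rw [← hα, map_zero]))
  have hβ0 : β ≠ 0 := by
    rintro rfl
    rw [zero_pow hp.ne_zero] at hβ
    exact y.ne_zero (hinj (by rw [← hβ, map_zero]))
  have hζ' : IsPrimitiveRoot (algebraMap k L ζ) p := hζ.map_of_injective hinj
  -- every automorphism multiplies `α` and `β` by a power of `ζ`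
  have hαpow : ∀ σ : L ≃ₐ[k] L, ∃ t : ℕ, t < p ∧ σ α = algebraMap k L (ζ ^ t) * α := by
    intro σ
    have h1 : (σ α) ^ p = α ^ p := by rw [← map_pow, hα, AlgEquiv.commutes]
    obtain ⟨t, ht, h2⟩ := exists_pow_mul_of_pow_eq hζ' hα0 h1
    exact ⟨t, ht, by rw [h2, map_pow]⟩
  have hβpow : ∀ σ : L ≃ₐ[k] L, ∃ t : ℕ, t < p ∧ σ β = algebraMap k L (ζ ^ t) * β := by
    intro σ
    have h1 : (σ β) ^ p = β ^ p := by rw [← map_pow, hβ, AlgEquiv.commutes]
    obtain ⟨t, ht, h2⟩ := exists_pow_mul_of_pow_eq hζ' hβ0 h1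
    exact ⟨t, ht, by rw [h2, map_pow]⟩
  by_contra hcon
  have hcon' : ∀ g : L ≃ₐ[k] L, g α = α → g β = β := by
    intro g hg
    by_contra hgβ
    exact hcon ⟨g, hg, hgβ⟩
  -- it suffices to produce `i` such that `β / α ^ i` is fixed by the Galois group
  have key : ∀ i : ℕ, (∀ σ : L ≃ₐ[k] L, σ (β / α ^ i) = β / α ^ i) → False := by
    intro i hfix
    obtain ⟨c, hc⟩ := (IsGalois.mem_range_algebraMap_iff_fixed (F := k) (E := L) _).mpr hfix
    have hc0 : c ≠ 0 := by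
      rintro rfl
      rw [map_zero] at hc
      exact div_ne_zero hβ0 (pow_ne_zero i hα0) hc.symm
    have h1 : β = algebraMap k L c * α ^ i := by
      rw [hc, div_mul_cancel₀ β (pow_ne_zero i hα0)]
    have h2 : algebraMap k L (y : k) = algebraMap k L ((a : k) ^ i * c ^ p) := by
      rw [← hβ, h1, mul_pow, ← pow_mul, mul_comm i p, pow_mul, hα, map_mul, map_pow, map_pow]
      ring
    have h3 : (y : k) = (a : k) ^ i * c ^ p := hinj h2
    apply hy
    have h4 : y = a ^ i * (Units.mk0 c hc0) ^ p := by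
      ext
      simp [h3]
    rw [h4]
    exact Subgroup.mul_mem_sup (Subgroup.pow_mem _ (Subgroup.mem_zpowers a) i) ⟨Units.mk0 c hc0, rfl⟩
  by_cases hall : ∀ σ : L ≃ₐ[k] L, σ α = α
  · -- the Galois group fixes `α`, hence `β`
    refine key 0 fun σ => ?_
    rw [pow_zero, div_one]
    exact hcon' σ (hall σ)
  · obtain ⟨σ₀, hσ₀⟩ := not_forall.mp hall
    obtain ⟨e, he, hσ₀α⟩ := hαpow σ₀
    obtain ⟨f, hf, hσ₀β⟩ := hβpow σ₀
    -- `ξ = ζ ^ e` is a primitive `p`-th root of unity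
    have hξ1 : ζ ^ e ≠ 1 := by
      intro h1
      apply hσ₀
      rw [hσ₀α, h1, map_one, one_mul]
    have hξ : IsPrimitiveRoot (ζ ^ e) p := by
      rw [IsPrimitiveRoot.iff_orderOf]
      refine orderOf_eq_prime ?_ hξ1
      rw [← pow_mul, mul_comm, pow_mul, hζ.pow_eq_one, one_pow]
    have hξ' : IsPrimitiveRoot (algebraMap k L (ζ ^ e)) p := hξ.map_of_injective hinj
    -- `ζ ^ f = ξ ^ i`
    obtain ⟨i, -, hi⟩ := hξ.eq_pow_of_pow_eq_one (ξ := ζ ^ f)
      (by rw [← pow_mul, mul_comm, pow_mul, hζ.pow_eq_one, one_pow])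
    refine key i fun σ => ?_
    -- `σ α = ξ ^ t * α`
    have h1 : (σ α) ^ p = α ^ p := by rw [← map_pow, hα, AlgEquiv.commutes]
    obtain ⟨t, -, hσα⟩ := exists_pow_mul_of_pow_eq hξ' hα0 h1
    have h2 : (σ₀ ^ t) α = algebraMap k L (ζ ^ e) ^ t * α := pow_apply_of_apply_eq_mul σ₀ hσ₀α t
    have h3 : (σ₀ ^ t) β = algebraMap k L (ζ ^ f) ^ t * β := pow_apply_of_apply_eq_mul σ₀ hσ₀β t
    -- `(σ₀ ^ t)⁻¹ * σ` fixes `α`, hence `β`
    have h4 : ((σ₀ ^ t)⁻¹ * σ) α = α := by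
      rw [AlgEquiv.mul_apply, hσα, ← h2]
      exact (σ₀ ^ t).symm_apply_apply α
    have h5 : ((σ₀ ^ t)⁻¹ * σ) β = β := hcon' _ h4
    have h6 : σ β = (σ₀ ^ t) β := by
      have := congrArg (σ₀ ^ t) h5
      rw [AlgEquiv.mul_apply] at this
      rw [← this]
      exact ((σ₀ ^ t).apply_symm_apply (σ β)).symm
    rw [map_div₀, map_pow, h6, h3, hσα, ← hi, map_pow]
    have hne : (algebraMap k L (ζ ^ e)) ^ t ≠ 0 := pow_ne_zero _ (hξ'.ne_zero hp.ne_zero)
    have hne' : ((algebraMap k L (ζ ^ e)) ^ t) ^ i ≠ 0 := pow_ne_zero _ hne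
    rw [mul_pow, ← pow_mul, ← pow_mul, mul_comm i t]
    rw [← pow_mul] at hne'
    rw [mul_div_mul_left _ _ hne']

end KummerSep

end Fermat.Agent.S55.H65
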